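/-
S44lib / Q1 / BLR  (helper5) — Project LSq.

**The Boston–Lenstra–Ribet lemma in dimension two** (abstract, char ≠ 2).

`ρ : G → GL₂(k)` with `k[G] → M₂(k)` onto (absolutely irreducible), `π : G → End_k(M)` a representation
on a non-zero `k`-module such that every `g` is killed on `M` by the characteristic polynomial of
`ρ g`:  `π(g)² - tr(ρ g) π(g) + det(ρ g) = 0`.  Then `k²` (with `ρ`) embeds `G`-equivariantly in `M`.

Proof.  `B = k`-span of the pairs `(ρ g, π g)` in `M₂(k) × End M`: a subalgebra.  The polarised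
Cayley–Hamilton form `Φ((a,b),(a',b')) = bb' + b'b - tr(a) b' - tr(a') b - (tr(aa') - tr a tr a')`
vanishes on the generators (the relation for `g`, `h`, `gh`), hence on `B`.  So the `b` with
`(0,b) ∈ B` anticommute, hence (char ≠ 2) any product of three of them vanishes; so
`M' = {m | b m = 0 for all (0,b) ∈ B} ≠ 0`, and on `M'` the algebra `B` acts through its first
projection, i.e. `M'` is a non-zero `M₂(k)`-module: it contains a copy of `k²`.
-/
import Mathlib

set_option autoImplicit false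

noncomputable section

namespace Fermat.Agent.S44lib.Q1

open Matrix

section BLR

variable {k : Type*} [Field k] {G : Type*} [Group G] {M : Type*} [AddCommGroup M] [Module k M]

/-- the polarised Cayley–Hamilton form on `M₂(k) × End M` -/
def polarCH : (Matrix (Fin 2) (Fin 2) k × Module.End k M) →ₗ[k]
    (Matrix (Fin 2) (Fin 2) k × Module.End k M) →ₗ[k] Module.End k M :=
  LinearMap.mk₂ k
    (fun x y => x.2 * y.2 + y.2 * x.2 - x.1.trace • y.2 - y.1.trace • x.2
      - ((x.1 * y.1).trace - x.1.trace * y.1.trace) • (1 : Module.End k M))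
    (by
      intro x x' y
      simp only [Prod.fst_add, Prod.snd_add, add_mul, mul_add, Matrix.trace_add]
      module)
    (by
      intro c x y
      simp only [Prod.smul_fst, Prod.smul_snd, smul_mul_assoc, mul_smul_comm, Matrix.trace_smul,
        smul_eq_mul]
      module)
    (by
      intro x y y'
      simp only [Prod.fst_add, Prod.snd_add, add_mul, mul_add, Matrix.trace_add]
      module)
    (by
      intro c x y
      simp only [Prod.smul_fst, Prod.smul_snd, smul_mul_assoc, mul_smul_comm, Matrix.trace_smul,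
        smul_eq_mul]
      module)

theorem polarCH_apply (x y : Matrix (Fin 2) (Fin 2) k × Module.End k M) :
    polarCH x y = x.2 * y.2 + y.2 * x.2 - x.1.trace • y.2 - y.1.trace • x.2
      - ((x.1 * y.1).trace - x.1.trace * y.1.trace) • (1 : Module.End k M) := rfl

/-- from the quadratic relation: `d u⁻¹ = t - u` -/
theorem smul_inv_of_quad {𝒜 : Type*} [Ring 𝒜] [Algebra k 𝒜] (u u' : 𝒜) (t d : k)
    (h : u * u - t • u + d • (1 : 𝒜) = 0) (h1 : u' * u = 1) :
    d • u' = t • (1 : 𝒜) - u := by
  have h2 : u' * (u * u - t • u + d • (1 : 𝒜)) = 0 := by rw [h, mul_zero]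
  rw [mul_add, mul_sub, ← mul_assoc, h1, one_mul, mul_smul_comm, h1, mul_smul_comm, mul_one] at h2
  rw [← sub_eq_zero, ← h2]
  abel

variable (ρ : G →* Matrix (Fin 2) (Fin 2) k) (π : G →* Module.End k M)

/-- the `k`-span of the pairs `(ρ g, π g)` -/
def pairSpan : Submodule k (Matrix (Fin 2) (Fin 2) k × Module.End k M) :=
  Submodule.span k (Set.range (ρ.prod π))

theorem pair_mem_pairSpan (g : G) : (ρ g, π g) ∈ pairSpan ρ π :=
  Submodule.subset_span ⟨g, rfl⟩

theorem one_mem_pairSpan : (1 : Matrix (Fin 2) (Fin 2) k × Module.End k M) ∈ pairSpan ρ π := by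
  have := pair_mem_pairSpan ρ π 1
  rwa [map_one, map_one] at this

theorem mul_mem_pairSpan {x y : Matrix (Fin 2) (Fin 2) k × Module.End k M}
    (hx : x ∈ pairSpan ρ π) (hy : y ∈ pairSpan ρ π) : x * y ∈ pairSpan ρ π := by
  have h1 : x * y ∈ pairSpan ρ π * pairSpan ρ π := Submodule.mul_mem_mul hx hy
  rw [pairSpan, Submodule.span_mul_span] at h1
  refine Submodule.span_mono ?_ h1
  rintro _ ⟨_, ⟨g, rfl⟩, _, ⟨h, rfl⟩, rfl⟩
  exact ⟨g * h, map_mul _ g h⟩

variable {ρ π}

/-- the polarised form vanishes on the generators -/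
theorem polarCH_pair
    (hrel : ∀ g : G, π g * π g - (ρ g).trace • π g + (ρ g).det • (1 : Module.End k M) = 0)
    (g h : G) : polarCH (ρ g, π g) (ρ h, π h) = 0 := by
  have e1 := smul_inv_of_quad (π g) (π g⁻¹) _ _ (hrel g) (by rw [← map_mul, inv_mul_cancel, map_one])
  have e2 := smul_inv_of_quad (π h) (π h⁻¹) _ _ (hrel h) (by rw [← map_mul, inv_mul_cancel, map_one])
  have e3 := smul_inv_of_quad (π (g * h)) (π (g * h)⁻¹) _ _ (hrel (g * h))
    (by rw [← map_mul, inv_mul_cancel, map_one])
  rw [_root_.mul_inv_rev, map_mul π h⁻¹, map_mul ρ, Matrix.det_mul, mul_comm (ρ g).det, mul_smul,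
    map_mul π g] at e3
  have e4 : (ρ h).det • (ρ g).det • (π h⁻¹ * π g⁻¹) =
      ((ρ h).det • π h⁻¹) * ((ρ g).det • π g⁻¹) := by
    rw [smul_mul_assoc, mul_smul_comm]
  rw [e4, e1, e2, sub_mul, mul_sub, mul_sub, smul_mul_assoc, one_mul, mul_smul_comm, mul_one,
    smul_mul_assoc, one_mul] at e3
  rw [polarCH_apply]
  simp only
  rw [← sub_eq_zero] at e3
  rw [← e3]
  module

/-- the polarised form vanishes on the span -/
theorem polarCH_eq_zero
    (hrel : ∀ g : G, π g * π g - (ρ g).trace • π g + (ρ g).det • (1 : Module.End k M) = 0)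
    {x y : Matrix (Fin 2) (Fin 2) k × Module.End k M}
    (hx : x ∈ pairSpan ρ π) (hy : y ∈ pairSpan ρ π) : polarCH x y = 0 := by
  induction hx using Submodule.span_induction with
  | mem x hx =>
    obtain ⟨g, rfl⟩ := hx
    induction hy using Submodule.span_induction with
    | mem y hy =>
      obtain ⟨h, rfl⟩ := hy
      exact polarCH_pair hrel g h
    | zero => rw [map_zero]
    | add y y' _ _ h1 h2 => rw [map_add, h1, h2, add_zero]
    | smul c y _ h1 => rw [map_smul, h1, smul_zero]
  | zero => rw [map_zero, LinearMap.zero_apply]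
  | add x x' _ _ h1 h2 => rw [map_add, LinearMap.add_apply, h1, h2, add_zero]
  | smul c x _ h1 => rw [map_smul, LinearMap.smul_apply, h1, smul_zero]

/-- the second components over `0` anticommute -/
theorem anticomm_of_mem
    (hrel : ∀ g : G, π g * π g - (ρ g).trace • π g + (ρ g).det • (1 : Module.End k M) = 0)
    {b c : Module.End k M} (hb : ((0 : Matrix (Fin 2) (Fin 2) k), b) ∈ pairSpan ρ π)
    (hc : ((0 : Matrix (Fin 2) (Fin 2) k), c) ∈ pairSpan ρ π) : b * c + c * b = 0 := by
  have h := polarCH_eq_zero hrel hb hc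
  rw [polarCH_apply] at h
  simpa using h

/-- products of three second components over `0` vanish (char ≠ 2) -/
theorem mul_mul_eq_zero_of_mem (h2 : (2 : k) ≠ 0)
    (hrel : ∀ g : G, π g * π g - (ρ g).trace • π g + (ρ g).det • (1 : Module.End k M) = 0)
    {b c d : Module.End k M} (hb : ((0 : Matrix (Fin 2) (Fin 2) k), b) ∈ pairSpan ρ π)
    (hc : ((0 : Matrix (Fin 2) (Fin 2) k), c) ∈ pairSpan ρ π)
    (hd : ((0 : Matrix (Fin 2) (Fin 2) k), d) ∈ pairSpan ρ π) : b * c * d = 0 := by
  have hcd : ((0 : Matrix (Fin 2) (Fin 2) k), c * d) ∈ pairSpan ρ π := by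
    have := mul_mem_pairSpan ρ π hc hd
    rwa [Prod.mk_mul_mk, mul_zero] at this
  have e1 : b * (c * d) + (c * d) * b = 0 := anticomm_of_mem hrel hb hcd
  have e2 : d * b + b * d = 0 := anticomm_of_mem hrel hd hb
  have e3 : c * b + b * c = 0 := anticomm_of_mem hrel hc hb
  -- `(cd)b = c(db) = -c(bd) = -(cb)d = (bc)d`
  have e4 : (c * d) * b = b * c * d := by
    have : d * b = - (b * d) := eq_neg_of_add_eq_zero_left e2
    have h' : c * b = - (b * c) := eq_neg_of_add_eq_zero_left e3
    rw [mul_assoc, this, mul_neg, ← mul_assoc, h', neg_mul, neg_neg]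
  rw [e4, ← mul_assoc] at e1
  have e5 : (2 : k) • (b * c * d) = 0 := by rw [two_smul]; exact e1
  exact (smul_eq_zero.mp e5).resolve_left h2

variable (ρ π)

/-- the part of `M` killed by the second components over `0` -/
def killed : Submodule k M where
  carrier := {m | ∀ b : Module.End k M,
    ((0 : Matrix (Fin 2) (Fin 2) k), b) ∈ pairSpan ρ π → b m = 0}
  add_mem' := fun hm hm' b hb => by rw [map_add, hm b hb, hm' b hb, add_zero]
  zero_mem' := fun b _ => map_zero b
  smul_mem' := fun c m hm b hb => by rw [map_smul, hm b hb, smul_zero]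

variable {ρ π}

theorem mem_killed {m : M} : m ∈ killed ρ π ↔ ∀ b : Module.End k M,
    ((0 : Matrix (Fin 2) (Fin 2) k), b) ∈ pairSpan ρ π → b m = 0 := Iff.rfl

theorem exists_ne_zero_mem_killed (h2 : (2 : k) ≠ 0)
    (hrel : ∀ g : G, π g * π g - (ρ g).trace • π g + (ρ g).det • (1 : Module.End k M) = 0)
    (hM : ∃ m : M, m ≠ 0) : ∃ m ∈ killed ρ π, m ≠ 0 := by
  obtain ⟨m₀, hm₀⟩ := hM
  by_contra hcon
  push Not at hcon
  have step : ∀ m : M, m ≠ 0 → ∃ b : Module.End k M,
      ((0 : Matrix (Fin 2) (Fin 2) k), b) ∈ pairSpan ρ π ∧ b m ≠ 0 := by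
    intro m hm
    by_contra h
    push Not at h
    exact hm (hcon m (mem_killed.mpr fun b hb => h b hb))
  obtain ⟨b₁, hb₁, h₁⟩ := step m₀ hm₀
  obtain ⟨b₂, hb₂, h₂⟩ := step _ h₁
  obtain ⟨b₃, hb₃, h₃⟩ := step _ h₂
  apply h₃
  have h0 := mul_mul_eq_zero_of_mem h2 hrel hb₃ hb₂ hb₁
  calc b₃ (b₂ (b₁ m₀)) = (b₃ * b₂ * b₁) m₀ := rfl
    _ = 0 := by rw [h0]; rfl

theorem apply_mem_killed {x : Matrix (Fin 2) (Fin 2) k × Module.End k M} (hx : x ∈ pairSpan ρ π)
    {m : M} (hm : m ∈ killed ρ π) : x.2 m ∈ killed ρ π := by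
  intro b hb
  have h1 := mul_mem_pairSpan ρ π hb hx
  have h0 : ((0 : Matrix (Fin 2) (Fin 2) k), b * x.2) ∈ pairSpan ρ π := by
    have e : ((0 : Matrix (Fin 2) (Fin 2) k), b) * x = (0, b * x.2) := by
      ext : 1
      · simp
      · rfl
    rwa [e] at h1
  exact hm _ h0

theorem apply_eq_of_fst_eq {x y : Matrix (Fin 2) (Fin 2) k × Module.End k M}
    (hx : x ∈ pairSpan ρ π) (hy : y ∈ pairSpan ρ π) (h : x.1 = y.1) {m : M}
    (hm : m ∈ killed ρ π) : x.2 m = y.2 m := by
  have h1 : x - y ∈ pairSpan ρ π := sub_mem hx hy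
  have h0 : ((0 : Matrix (Fin 2) (Fin 2) k), x.2 - y.2) ∈ pairSpan ρ π := by
    have e : x - y = (0, x.2 - y.2) := by
      ext : 1
      · simp [h]
      · rfl
    rwa [e] at h1
  have h3 := hm _ h0
  rwa [LinearMap.sub_apply, sub_eq_zero] at h3

/-- **Boston–Lenstra–Ribet in dimension two.** -/
theorem exists_equivariant_embedding (h2 : (2 : k) ≠ 0)
    (hspan : Submodule.span k (Set.range ρ) = ⊤)
    (hrel : ∀ g : G, π g * π g - (ρ g).trace • π g + (ρ g).det • (1 : Module.End k M) = 0)
    (hM : ∃ m : M, m ≠ 0) :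
    ∃ f : (Fin 2 → k) →ₗ[k] M, Function.Injective f ∧ ∀ (g : G) (v : Fin 2 → k),
      f (ρ g *ᵥ v) = π g (f v) := by
  classical
  -- the choice function
  have hsurj : ∀ a : Matrix (Fin 2) (Fin 2) k, ∃ b : Module.End k M, (a, b) ∈ pairSpan ρ π := by
    intro a
    have h1 : a ∈ (pairSpan ρ π).map
        (LinearMap.fst k (Matrix (Fin 2) (Fin 2) k) (Module.End k M)) := by
      rw [pairSpan, Submodule.map_span]
      have e : (LinearMap.fst k (Matrix (Fin 2) (Fin 2) k) (Module.End k M)) ''
          Set.range (ρ.prod π) = Set.range ρ := by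
        ext a
        constructor
        · rintro ⟨_, ⟨g, rfl⟩, rfl⟩
          exact ⟨g, rfl⟩
        · rintro ⟨g, rfl⟩
          exact ⟨_, ⟨g, rfl⟩, rfl⟩
      rw [e, hspan]
      trivial
    obtain ⟨x, hx, rfl⟩ := h1
    exact ⟨x.2, hx⟩
  choose β hβ using hsurj
  have huniq : ∀ {x : Matrix (Fin 2) (Fin 2) k × Module.End k M}, x ∈ pairSpan ρ π →
      ∀ {m : M}, m ∈ killed ρ π → β x.1 m = x.2 m :=
    fun {x} hx {m} hm => apply_eq_of_fst_eq (hβ x.1) hx rfl hm
  obtain ⟨m, hmK, hm0⟩ := exists_ne_zero_mem_killed h2 hrel hM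
  -- some diagonal idempotent does not kill `m`
  have hsum : β (Matrix.single 0 0 1) m + β (Matrix.single 1 1 1) m = m := by
    have h1 : ((Matrix.single 0 0 (1 : k) + Matrix.single 1 1 1 : Matrix (Fin 2) (Fin 2) k),
        β (Matrix.single 0 0 1) + β (Matrix.single 1 1 1)) ∈ pairSpan ρ π :=
      add_mem (hβ _) (hβ _)
    have h2' : (Matrix.single (0 : Fin 2) (0 : Fin 2) (1 : k) + Matrix.single 1 1 1) = 1 := by
      ext i j
      fin_cases i <;> fin_cases j <;> simp [Matrix.single]
    have e := apply_eq_of_fst_eq h1 (one_mem_pairSpan ρ π) h2' hmK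
    simpa using e
  obtain ⟨i, hi⟩ : ∃ i : Fin 2, β (Matrix.single i i 1) m ≠ 0 := by
    by_contra hcon
    push Not at hcon
    rw [hcon 0, hcon 1, add_zero] at hsum
    exact hm0 hsum.symm
  set m' := β (Matrix.single i i 1) m with hm'
  have hm'K : m' ∈ killed ρ π := apply_mem_killed (hβ _) hmK
  -- the idempotent fixes `m'`
  have hidem : β (Matrix.single i i 1) m' = m' := by
    have h1 := mul_mem_pairSpan ρ π (hβ (Matrix.single i i (1 : k))) (hβ (Matrix.single i i (1 : k)))
    have e := huniq h1 hmK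
    have e1 : ((Matrix.single i i (1 : k), β (Matrix.single i i 1)) *
        (Matrix.single i i (1 : k), β (Matrix.single i i 1))).1 = Matrix.single i i 1 := by
      show Matrix.single i i (1 : k) * Matrix.single i i 1 = Matrix.single i i 1
      rw [Matrix.single_mul_single_same, one_mul]
    rw [e1] at e
    exact e.symm
  -- the map
  let col : (Fin 2 → k) → Matrix (Fin 2) (Fin 2) k := fun v => Matrix.vecMulVec v (Pi.single i 1)
  have hcol_add : ∀ v w, col (v + w) = col v + col w := by
    intro v w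
    ext r c
    simp [col, Matrix.vecMulVec_apply, add_mul]
  have hcol_smul : ∀ (a : k) v, col (a • v) = a • col v := by
    intro a v
    ext r c
    simp [col, Matrix.vecMulVec_apply, mul_assoc]
  let f : (Fin 2 → k) →ₗ[k] M :=
    { toFun := fun v => β (col v) m'
      map_add' := by
        intro v w
        have h1 : (col v + col w, β (col v) + β (col w)) ∈ pairSpan ρ π := add_mem (hβ _) (hβ _)
        have e := huniq h1 hm'K
        rw [hcol_add]
        exact e
      map_smul' := by
        intro a v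
        have h1 : (a • col v, a • β (col v)) ∈ pairSpan ρ π :=
          (pairSpan ρ π).smul_mem a (hβ (col v))
        have e := huniq h1 hm'K
        rw [hcol_smul]
        exact e }
  have hf : ∀ v, f v = β (col v) m' := fun _ => rfl
  -- action of a matrix
  have hact : ∀ (a : Matrix (Fin 2) (Fin 2) k) (v : Fin 2 → k), f (a *ᵥ v) = β a (f v) := by
    intro a v
    have h1 := mul_mem_pairSpan ρ π (hβ a) (hβ (col v))
    have e := huniq h1 hm'K
    have e1 : ((a, β a) * (col v, β (col v))).1 = col (a *ᵥ v) := by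
      show a * col v = col (a *ᵥ v)
      exact Matrix.mul_vecMulVec a v _
    rw [e1] at e
    rw [hf, e]
    rfl
  refine ⟨f, ?_, ?_⟩
  · -- injectivity
    rw [← LinearMap.ker_eq_bot, Submodule.eq_bot_iff]
    intro v hv
    rw [LinearMap.mem_ker] at hv
    by_contra hv0
    obtain ⟨j, hj⟩ : ∃ j, v j ≠ 0 := by
      by_contra hcon
      push Not at hcon
      exact hv0 (funext hcon)
    have h1 := hact (Matrix.single i j (v j)⁻¹) v
    rw [hv, map_zero] at h1
    have h3 : Matrix.single i j (v j)⁻¹ *ᵥ v = Pi.single i 1 := by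
      rw [Matrix.single_mulVec_eq, inv_mul_cancel₀ hj, one_smul]
    rw [h3, hf] at h1
    have h4 : col (Pi.single i 1) = Matrix.single i i 1 :=
      (Matrix.single_eq_single_vecMulVec_single i i).symm
    rw [h4, hidem] at h1
    exact hi h1
  · intro g v
    rw [hact]
    exact huniq (pair_mem_pairSpan ρ π g) (apply_mem_killed (hβ _) hm'K)

end BLR




end Fermat.Agent.S44lib.Q1

end
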