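/-
S44lib / Q1 / Cheb  (helper5) — Project LSq.

**From Frobenius elements to all of `G_ℚ`** (weak Chebotarev, `S31lib.WC.brickWC`).

`ρ : G_ℚ → GL₂(k)` and `π : G_ℚ → End_k(M)` of finite level; if every Frobenius element `φ` at a prime
outside a finite set satisfies `π(φ)² - tr(ρ φ) π(φ) + det(ρ φ) = 0`, then so does every `g ∈ G_ℚ`
(`g = φ^j` on the finite level; the relation passes to powers: `S32lib.quad_pow`, and
`tr(X^j) = powTr (tr X) (det X) j`: `S32lib.trace_pow_two`).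
-/
import Mathlib
import Fermat.Agent.S31lib.WC.Export
import Fermat.Agent.S32lib.Cheb.QuadPow
import Fermat.Agent.S32lib.Cheb.Transfer

set_option autoImplicit false

noncomputable section

namespace Fermat.Agent.S44lib.Q1

open Matrix

local notation "Qb" => AlgebraicClosure ℚ
local notation "GQ" => (AlgebraicClosure ℚ ≃ₐ[ℚ] AlgebraicClosure ℚ)

theorem quad_of_frobenius_all {k : Type*} [Field k] (ρ : GQ →* Matrix (Fin 2) (Fin 2) k)
    {M : Type*} [AddCommGroup M] [Module k M] (π : GQ →* Module.End k M)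
    (hρL : ∃ L : IntermediateField ℚ Qb, FiniteDimensional ℚ L ∧
      ∀ σ : GQ, (∀ x ∈ L, σ x = x) → ρ σ = 1)
    (hπL : ∃ L : IntermediateField ℚ Qb, FiniteDimensional ℚ L ∧
      ∀ σ : GQ, (∀ x ∈ L, σ x = x) → π σ = 1)
    (S₀ : Finset ℕ)
    (hfrob : ∀ ℓ : ℕ, ℓ.Prime → ℓ ∉ S₀ → ∀ A : ValuationSubring Qb, A.LiesOverPrime ℓ →
      ∀ φ : GQ, A.IsFrobeniusAt φ ℓ →
        π φ * π φ - (ρ φ).trace • π φ + (ρ φ).det • (1 : Module.End k M) = 0)
    (g : GQ) : π g * π g - (ρ g).trace • π g + (ρ g).det • (1 : Module.End k M) = 0 := by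
  obtain ⟨L₁, hL₁, h₁⟩ := hρL
  obtain ⟨L₂, hL₂, h₂⟩ := hπL
  have := hL₁
  have := hL₂
  have hL : FiniteDimensional ℚ ↥(L₁ ⊔ L₂) := IntermediateField.finiteDimensional_sup L₁ L₂
  obtain ⟨ℓ, A, φ, j, hℓ, hℓS, hA, hφ, hφg⟩ := Fermat.Agent.S31lib.WC.brickWC S₀ (L₁ ⊔ L₂) hL g
  -- `g⁻¹ φ^j` fixes the finite level
  have hfix : ∀ x ∈ L₁ ⊔ L₂, (g⁻¹ * φ ^ j) x = x := by
    intro x hx
    rw [AlgEquiv.mul_apply, hφg x hx]
    exact g.symm_apply_apply x
  have e1 : ρ g = ρ φ ^ j := by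
    have := h₁ (g⁻¹ * φ ^ j) fun x hx => hfix x (le_sup_left (a := L₁) (b := L₂) hx)
    have h3 : ρ g * ρ (g⁻¹ * φ ^ j) = ρ (φ ^ j) := by
      rw [← map_mul, mul_inv_cancel_left]
    rw [this, mul_one] at h3
    rw [h3, map_pow]
  have e2 : π g = π φ ^ j := by
    have := h₂ (g⁻¹ * φ ^ j) fun x hx => hfix x (le_sup_right (a := L₁) (b := L₂) hx)
    have h3 : π g * π (g⁻¹ * φ ^ j) = π (φ ^ j) := by
      rw [← map_mul, mul_inv_cancel_left]
    rw [this, mul_one] at h3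
    rw [h3, map_pow]
  have h := Fermat.Agent.S32lib.quad_pow (π φ) (ρ φ).trace (ρ φ).det (hfrob ℓ hℓ hℓS A hA φ hφ) j
  rw [e1, e2, Fermat.Agent.S32lib.trace_pow_two, Matrix.det_pow]
  exact h

end Fermat.Agent.S44lib.Q1

end
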