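/-
S44lib / Q1 / ESide  (helper5) — Project LSq.

**The mod-`p` representation of an integral Weierstrass model in matrix form over `ZMod p`.**

For `W : WeierstrassCurve ℤ`, `Δ ≠ 0`, `E = W_ℚ` and a prime `p`:
* `rhoE : G_ℚ →* M₂(ZMod p)` and `coordE : E[p] ≃+ (ZMod p)²`, `coordE (σ • x) = rhoE σ *ᵥ coordE x`
  (the level-one matrices of helper6's Tate system `S58lib/Tate`, moved from `ZMod (p ^ 1)` to `ZMod p`);
* Frobenius at a good prime `ℓ ≠ p` has trace `a_ℓ(W)` and determinant `ℓ` (`S58lib`: `TateFrob`);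
* finite level; irreducibility in matrix form;
* if `E[p]` is irreducible and `p ≠ 2`, the matrices `rhoE σ` span `M₂(ZMod p)`
  (odd + irreducible ⟹ absolutely irreducible, `S58lib/Cmp/AbsIrr`; Burnside, `TeamA/Burnside`).
-/
import Mathlib
import Fermat.Agent.S58lib.Tate.Transport
import Fermat.Agent.S58lib.Cnt.FrobCore
import Fermat.Agent.S58lib.Cmp.Hres
import Fermat.Agent.TeamA.Burnside

set_option autoImplicit false
set_option linter.unusedSectionVars false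

noncomputable section

namespace Fermat.Agent.S44lib.Q1

open WeierstrassCurve WeierstrassCurve.Affine WeierstrassCurve.Affine.Point
open Fermat.Agent.S58lib.Tate Fermat.Agent.S29lib.E Matrix Polynomial

local notation "Qb" => AlgebraicClosure ℚ
local notation "GQ" => (AlgebraicClosure ℚ ≃ₐ[ℚ] AlgebraicClosure ℚ)

variable (W : WeierstrassCurve ℤ) (hΔ : W.Δ ≠ 0) (p : ℕ) [hp : Fact p.Prime]

/-- `ZMod (p ^ 1) ≃+* ZMod p` -/
def phiOne : ZMod (p ^ 1) ≃+* ZMod p := ZMod.ringEquivCongr (pow_one p)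

/-- **the mod-`p` representation in matrix form** -/
def rhoE : GQ →* Matrix (Fin 2) (Fin 2) (ZMod p) where
  toFun σ := (levelMat (WQ' W) p (WQ'_Δ_ne_zero hΔ) 1 σ).map (phiOne p)
  map_one' := by
    rw [levelMat, TorsionSystem.galMat_one]
    exact (RingHom.mapMatrix (phiOne p : ZMod (p ^ 1) →+* ZMod p)).map_one
  map_mul' σ τ := by
    rw [levelMat, TorsionSystem.galMat_mul]
    exact (RingHom.mapMatrix (phiOne p : ZMod (p ^ 1) →+* ZMod p)).map_mul _ _

theorem rhoE_apply (σ : GQ) :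
    rhoE W hΔ p σ = (levelMat (WQ' W) p (WQ'_Δ_ne_zero hΔ) 1 σ).map (phiOne p) := rfl

/-- `E[p] ≃ E[p^1]` (the same points) -/
def levelOneEquiv : Ep (WQ' W) p ≃+ tors (Pts (WQ' W)) p 1 where
  toFun := toLevelOne (WQ' W) p
  invFun y := ⟨(y : Pts (WQ' W)), by
    have h := y.2
    rw [Submodule.mem_torsionBy_iff] at h ⊢
    rw [pow_one] at h
    exact h⟩
  left_inv _ := rfl
  right_inv _ := rfl
  map_add' := map_add _

/-- **the coordinates on `E[p]`** -/
def coordE : Ep (WQ' W) p ≃+ (Fin 2 → ZMod p) :=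
  ((levelOneEquiv W p).trans (levelEquiv (WQ' W) p (WQ'_Δ_ne_zero hΔ) 1)).trans
    (AddEquiv.piCongrRight fun _ : Fin 2 => (phiOne p).toAddEquiv)

theorem coordE_apply (x : Ep (WQ' W) p) (i : Fin 2) :
    coordE W hΔ p x i =
      phiOne p (levelEquiv (WQ' W) p (WQ'_Δ_ne_zero hΔ) 1 (toLevelOne (WQ' W) p x) i) := rfl

/-- equivariance -/
theorem coordE_smul (σ : GQ) (x : Ep (WQ' W) p) :
    coordE W hΔ p (σ • x) = rhoE W hΔ p σ *ᵥ coordE W hΔ p x := by
  funext i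
  rw [coordE_apply, toLevelOne_smul, ← levelMat_mulVec, rhoE_apply]
  have := RingHom.map_mulVec (phiOne p : ZMod (p ^ 1) →+* ZMod p)
    (levelMat (WQ' W) p (WQ'_Δ_ne_zero hΔ) 1 σ)
    (levelEquiv (WQ' W) p (WQ'_Δ_ne_zero hΔ) 1 (toLevelOne (WQ' W) p x)) i
  exact this

/-! ### Frobenius -/

omit W hΔ hp in
/-- comparing the coefficients of two monic quadratics. -/
theorem quad_coeffs_eq {R : Type*} [CommRing R] {a b c d : R}
    (h : (X : R[X]) ^ 2 - C a * X + C b = X ^ 2 - C c * X + C d) : a = c ∧ b = d := by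
  have h1 := congrArg (fun P : R[X] => P.coeff 1) h
  have h0 := congrArg (fun P : R[X] => P.coeff 0) h
  simp only [coeff_add, coeff_sub, coeff_X_pow, coeff_C_mul, coeff_X_one, coeff_C] at h1
  simp only [coeff_add, coeff_sub, coeff_X_pow, coeff_C_mul, coeff_X_zero, coeff_C] at h0
  exact ⟨by simpa using h1, by simpa using h0⟩

/-- Frobenius at a good prime `ℓ ≠ p` on the `p`-adic Tate module: trace `a_ℓ`, determinant `ℓ`. -/
theorem trace_det_tateMatZp_frob {ℓ : ℕ} (hℓ : ℓ.Prime) (hℓp : ℓ ≠ p) (hgood : ¬ (ℓ : ℤ) ∣ W.Δ)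
    {A : ValuationSubring Qb} (hA : A.LiesOverPrime ℓ) {σ : GQ} (hσ : A.IsFrobeniusAt σ ℓ) :
    (tateMatZp (WQ' W) p (WQ'_Δ_ne_zero hΔ) σ).trace = ((W.apOfModel ℓ : ℤ) : ℤ_[p]) ∧
      (tateMatZp (WQ' W) p (WQ'_Δ_ne_zero hΔ) σ).det = ((ℓ : ℕ) : ℤ_[p]) := by
  have h := tateFrob_of_frobCore Fermat.Agent.S58lib.Cnt.frobCore W hΔ p ℓ hℓ hℓp hgood A hA σ hσ
  have h' : LinearMap.charpoly ((tateRep (WQ' W) p (natCast_mem_maximalIdeal_padicInt p)
      (WQ'_Δ_ne_zero hΔ)).ρ σ) =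
      X ^ 2 - C ((W.apOfModel ℓ : ℤ) : ℤ_[p]) * X + C ((ℓ : ℕ) : ℤ_[p]) := h
  rw [tateRep_charpoly, Matrix.charpoly_fin_two] at h'
  exact quad_coeffs_eq h'

/-- **Frobenius at a good prime `ℓ ≠ p` on `E[p]`: trace `a_ℓ`, determinant `ℓ`.** -/
theorem trace_det_rhoE_frob {ℓ : ℕ} (hℓ : ℓ.Prime) (hℓp : ℓ ≠ p) (hgood : ¬ (ℓ : ℤ) ∣ W.Δ)
    {A : ValuationSubring Qb} (hA : A.LiesOverPrime ℓ) {σ : GQ} (hσ : A.IsFrobeniusAt σ ℓ) :
    (rhoE W hΔ p σ).trace = ((W.apOfModel ℓ : ℤ) : ZMod p) ∧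
      (rhoE W hΔ p σ).det = ((ℓ : ℕ) : ZMod p) := by
  obtain ⟨ht, hd⟩ := trace_det_tateMatZp_frob W hΔ p hℓ hℓp hgood hA hσ
  have e : rhoE W hΔ p σ = (tateMatZp (WQ' W) p (WQ'_Δ_ne_zero hΔ) σ).map
      (((phiOne p : ZMod (p ^ 1) →+* ZMod p)).comp (PadicInt.toZModPow 1)) := by
    rw [rhoE_apply, ← tateMatZp_map_toZModPow, Matrix.map_map]
    rfl
  constructor
  · rw [e, ← AddMonoidHom.map_trace, ht, map_intCast]
  · have h1 := RingHom.map_det (((phiOne p : ZMod (p ^ 1) →+* ZMod p)).comp (PadicInt.toZModPow 1))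
      (tateMatZp (WQ' W) p (WQ'_Δ_ne_zero hΔ) σ)
    rw [RingHom.mapMatrix_apply] at h1
    rw [e, ← h1, hd, map_natCast]

/-! ### finite level -/

theorem rhoE_finiteLevel : ∃ L : IntermediateField ℚ Qb, FiniteDimensional ℚ L ∧
    ∀ σ : GQ, (∀ x ∈ L, σ x = x) → rhoE W hΔ p σ = 1 := by
  obtain ⟨L, hL, hfix⟩ := exists_finite_field_of_finite (WQ' W)
    (tors (Pts (WQ' W)) p 1 : Set (Pts (WQ' W))) (finite_tors (WQ' W) p (WQ'_Δ_ne_zero hΔ) 1)
  refine ⟨L, hL, fun σ hσ => ?_⟩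
  have h1 : levelMat (WQ' W) p (WQ'_Δ_ne_zero hΔ) 1 σ = 1 := by
    apply TorsionSystem.galMat_eq_one_of_fix
    intro x
    apply Subtype.ext
    exact hfix σ hσ _ x.2
  rw [rhoE_apply, h1]
  exact (RingHom.mapMatrix (phiOne p : ZMod (p ^ 1) →+* ZMod p)).map_one

/-! ### irreducibility -/

/-- irreducibility of `E[p]` in matrix form -/
theorem rhoE_irreducible
    (hirr : GaloisRepIsIrreducible (K := Qb) ℚ (WQ' W : WeierstrassCurve ℚ) p)
    (U : Submodule (ZMod p) (Fin 2 → ZMod p))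
    (hU : ∀ σ : GQ, ∀ x ∈ U, rhoE W hΔ p σ *ᵥ x ∈ U) : U = ⊥ ∨ U = ⊤ := by
  set c := coordE W hΔ p with hc
  let f : Ep (WQ' W) p →ₗ[ZMod p] (Fin 2 → ZMod p) :=
    (c : Ep (WQ' W) p →+ (Fin 2 → ZMod p)).toZModLinearMap p
  have hf : ∀ x, f x = c x := fun _ => rfl
  have hstab : IsGaloisStable ℚ (U.comap f) := by
    intro σ x hx
    rw [Submodule.mem_comap] at hx ⊢
    rw [hf, coordE_smul]
    exact hU σ _ hx
  rcases hirr.2 _ hstab with h | h
  · left
    rw [Submodule.eq_bot_iff]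
    intro u hu
    have h1 : c.symm u ∈ U.comap f := by
      rw [Submodule.mem_comap, hf, AddEquiv.apply_symm_apply]
      exact hu
    rw [h, Submodule.mem_bot] at h1
    rw [← c.apply_symm_apply u, h1, _root_.map_zero]
  · right
    rw [Submodule.eq_top_iff']
    intro u
    have h1 : c.symm u ∈ U.comap f := by rw [h]; trivial
    rw [Submodule.mem_comap, hf, AddEquiv.apply_symm_apply] at h1
    exact h1

/-! ### the residual representation and Burnside -/

/-- the matrices as a `ResidualGaloisRep` -/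
def resRepE : ResidualGaloisRep (ZMod p) where
  V := Fin 2 → ZMod p
  finrank_eq := Module.finrank_fin_fun (ZMod p)
  ρ := ((Matrix.toLinAlgEquiv' : Matrix (Fin 2) (Fin 2) (ZMod p) ≃ₐ[ZMod p] _) :
    Matrix (Fin 2) (Fin 2) (ZMod p) →* Module.End (ZMod p) (Fin 2 → ZMod p)).comp (rhoE W hΔ p)
  factorsThroughFiniteLevel := by
    obtain ⟨L, hL, hfix⟩ := rhoE_finiteLevel W hΔ p
    refine ⟨L, hL, fun σ hσ => ?_⟩
    rw [MonoidHom.comp_apply, hfix σ hσ, map_one]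

theorem resRepE_ρ (σ : GQ) : (resRepE W hΔ p).ρ σ = Matrix.toLin' (rhoE W hΔ p σ) := rfl

theorem resRepE_apply (σ : GQ) (x : Fin 2 → ZMod p) :
    (resRepE W hΔ p).ρ σ x = rhoE W hΔ p σ *ᵥ x := rfl

theorem resRepE_charpoly (σ : GQ) :
    LinearMap.charpoly ((resRepE W hΔ p).ρ σ) = (rhoE W hΔ p σ).charpoly :=
  Matrix.charpoly_toLin' _

/-- an endomorphism in the span of the `ρ σ` has its matrix in the span of the `rhoE σ`. -/
theorem toMatrix'_mem_span (f : Module.End (ZMod p) (Fin 2 → ZMod p))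
    (hf : f ∈ Submodule.span (ZMod p) (Set.range (resRepE W hΔ p).ρ)) :
    LinearMap.toMatrix' f ∈ Submodule.span (ZMod p) (Set.range (rhoE W hΔ p)) := by
  induction hf using Submodule.span_induction with
  | mem f hf =>
    obtain ⟨σ, rfl⟩ := hf
    apply Submodule.subset_span
    refine ⟨σ, ?_⟩
    have : (resRepE W hΔ p).ρ σ = Matrix.toLin' (rhoE W hΔ p σ) := rfl
    rw [this, LinearMap.toMatrix'_toLin']
  | zero => rw [_root_.map_zero]; exact Submodule.zero_mem _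
  | add f g _ _ h1 h2 => rw [map_add]; exact Submodule.add_mem _ h1 h2
  | smul c f _ h1 => rw [map_smul]; exact Submodule.smul_mem _ c h1

/-- **the matrices `rhoE σ` span `M₂(ZMod p)`** when `E[p]` is irreducible and `p ≠ 2`. -/
theorem span_range_rhoE (hp2 : p ≠ 2)
    (hirr : GaloisRepIsIrreducible (K := Qb) ℚ (WQ' W : WeierstrassCurve ℚ) p) :
    Submodule.span (ZMod p) (Set.range (rhoE W hΔ p)) = ⊤ := by
  classical
  -- irreducible
  have hirr₀ : (resRepE W hΔ p).IsIrreducible := by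
    intro U hU
    apply rhoE_irreducible W hΔ p hirr U
    intro σ x hx
    exact hU σ x hx
  -- Frobenius characteristic polynomials
  have h₀ : ∀ ℓ : ℕ, ℓ.Prime → ℓ ∉ ({p} ∪ W.Δ.natAbs.primeFactors : Finset ℕ) →
      ∀ A : ValuationSubring Qb, A.LiesOverPrime ℓ → ∀ φ : GQ, A.IsFrobeniusAt φ ℓ →
        LinearMap.charpoly ((resRepE W hΔ p).ρ φ) =
          X ^ 2 - C ((W.apOfModel ℓ : ℤ) : ZMod p) * X + C ((ℓ : ℕ) : ZMod p) := by
    intro ℓ hℓ hℓS A hA φ hφ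
    simp only [Finset.mem_union, Finset.mem_singleton, not_or] at hℓS
    have hgood : ¬ (ℓ : ℤ) ∣ W.Δ := by
      intro hd
      apply hℓS.2
      rw [Nat.mem_primeFactors]
      exact ⟨hℓ, Int.natCast_dvd.mp hd, Int.natAbs_ne_zero.mpr hΔ⟩
    obtain ⟨ht, hd⟩ := trace_det_rhoE_frob W hΔ p hℓ hℓS.1 hgood hA hφ
    rw [resRepE_charpoly, Matrix.charpoly_fin_two, ht, hd]
  have hdet := Fermat.Agent.S58lib.Cmp.det_complexConjugation_modp p (resRepE W hΔ p)
    (fun ℓ => W.apOfModel ℓ) _ h₀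
  have h2 : (2 : ZMod p) ≠ 0 := by
    intro h20
    have h3 : ((2 : ℕ) : ZMod p) = 0 := by exact_mod_cast h20
    rw [ZMod.natCast_eq_zero_iff] at h3
    exact hp2 ((Nat.prime_dvd_prime_iff_eq hp.out Nat.prime_two).mp h3)
  have habs : (resRepE W hΔ p).IsAbsolutelyIrreducible :=
    Fermat.Agent.S58lib.Cmp.isAbsolutelyIrreducible_of_charpoly_eq (RingHom.id (ZMod p)) h2
      (resRepE W hΔ p) hirr₀ complexConjugation complexConjugation_mul_self hdet
      (resRepE W hΔ p) (fun σ => (Polynomial.map_id).symm)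
  have hspan := Fermat.Agent.TeamA.Burnside.span_range_eq_top (resRepE W hΔ p) habs
  -- back to matrices
  rw [Submodule.eq_top_iff']
  intro a
  have ha : (Matrix.toLin' a : Module.End (ZMod p) (Fin 2 → ZMod p)) ∈
      Submodule.span (ZMod p) (Set.range (resRepE W hΔ p).ρ) := by
    rw [hspan]; trivial
  have := toMatrix'_mem_span W hΔ p _ ha
  rwa [LinearMap.toMatrix'_toLin'] at this

end Fermat.Agent.S44lib.Q1

end
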