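/-
S44lib / Q1 / EigenTors  (helper5) — Project LSq.

**A non-zero Hecke eigenclass in `J₀(N)[p]`** for a mod-`𝔪` eigensystem with values in `𝔽_p`.

`f` a normalized eigenform of level `N`, `𝔪 ∋ p` a maximal ideal of `ℤ̄`, `a : ℕ → ℤ` with
`a_ℓ(f) ≡ a ℓ (mod 𝔪)` for the primes `ℓ` in a set `S` of primes not dividing `N`.  Then there is
`0 ≠ x ∈ J₀(N)[p]` with `T_ℓ x = a ℓ • x` for all `ℓ ∈ S`.

Proof.  The Kummer comparison `S29lib.Z.compStatement` gives `J[p] ≃ (ℤ/p)^r`, Hecke-equivariant for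
integer matrices `t_ℓ`, and the full eigensystem of `f` cuts a 2-dimensional piece of `ℂ^r`; the
eigen-lattice over the valuation ring `ℤ̄_𝔪` (block E of S29lib) reduces to a 2-dimensional space of
eigenvectors over `ℤ̄/𝔪`; a non-zero solution over `ℤ̄/𝔪` of a linear system with coefficients in `𝔽_p`
gives a non-zero solution over `𝔽_p` (apply an `𝔽_p`-linear functional).
-/
import Mathlib
import Fermat.Agent.S44lib.Iface
import Fermat.Agent.S29lib.Z.Final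

set_option autoImplicit false

noncomputable section

namespace Fermat.Agent.S44lib.Q1

open ModularCurve Matrix Fermat.Agent.S29lib Fermat.Agent.S29lib.E Fermat.Agent.S44lib
  Fermat.Agent.S19lib

local notation "Zbar" => integralClosure ℤ ℂ

/-! ### descent of solutions of a linear system to the base field -/

/-- a non-zero solution over an extension field of a family of linear equations with coefficients in
the field `F` (given as a commutative ring with `IsField F`, to keep instance paths simple)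
gives a non-zero solution over `F`. -/
theorem exists_ne_zero_of_extension {F K : Type*} [CommRing F] (hF : IsField F) [Field K]
    [Algebra F K] {n : Type*}
    [Fintype n] {I : Type*} (A : I → Matrix n n F) (w : n → K) (hw : w ≠ 0)
    (hA : ∀ i, (A i).map (algebraMap F K) *ᵥ w = 0) :
    ∃ v : n → F, v ≠ 0 ∧ ∀ i, A i *ᵥ v = 0 := by
  let _ : Field F := hF.toField
  obtain ⟨j, hj⟩ : ∃ j, w j ≠ 0 := by
    by_contra hcon
    push Not at hcon
    exact hw (funext hcon)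
  obtain ⟨lam, hlam⟩ : ∃ lam : Module.Dual F K, lam (w j) ≠ 0 := by
    by_contra hcon
    push Not at hcon
    exact hj ((Module.forall_dual_apply_eq_zero_iff F (w j)).mp hcon)
  refine ⟨fun c => lam (w c), fun h => hlam (congrFun h j), fun i => ?_⟩
  funext r
  have h1 := congrFun (hA i) r
  simp only [Matrix.mulVec, dotProduct, Matrix.map_apply, Pi.zero_apply] at h1 ⊢
  have h2 : lam (∑ c, algebraMap F K (A i r c) * w c) = ∑ c, A i r c * lam (w c) := by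
    rw [map_sum]
    refine Finset.sum_congr rfl fun c _ => ?_
    rw [← Algebra.smul_def, map_smul, smul_eq_mul]
  rw [← h2, h1, map_zero]

/-! ### the eigenvector over the residue field -/

set_option synthInstance.maxHeartbeats 200000 in
/-- the reduction of the eigen-lattice: a non-zero vector over `ℤ̄/𝔪` on which every `t_ℓ` acts
through the reduction of the eigenvalue of `f`. -/
theorem exists_eigenvector_resField {N p : ℕ} [NeZero N] (hp : p.Prime) (C : ComparisonData N p)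
    {g : CuspForm (CongruenceSubgroup.Gamma0 N) 2} (I : EigenInput C g)
    (𝔪 : Ideal Zbar) [𝔪.IsMaximal] (hpm : (p : Zbar) ∈ 𝔪) :
    ∃ w : Fin C.r → Zbar ⧸ 𝔪, w ≠ 0 ∧ ∀ ℓ : Nat.Primes,
      (C.t ℓ).map (Int.cast : ℤ → Zbar ⧸ 𝔪) *ᵥ w = Ideal.Quotient.mk 𝔪 (I.a ℓ) • w := by
  classical
  have hchar : CharP (Zbar ⧸ 𝔪) p := charP_quot 𝔪 p hp hpm
  set k := Zbar ⧸ 𝔪 with hk
  set φ : Zbar →+* k := Ideal.Quotient.mk 𝔪 with hφ
  have : ValuationRing (OLoc φ) := valuationRing_OLoc φ hp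
  set A : Nat.Primes → Matrix (Fin C.r) (Fin C.r) (OLoc φ) := heckeMat C φ I.a with hA
  obtain ⟨S, v, hSv⟩ := exists_echelonBasis (kerO A) (isSat_kerO A)
  have hcard : S.card = 2 := by
    rw [← finrank_kerL A (embLoc φ) (embLoc_injective φ) hSv, hA, iInf_ker_eq]
    exact I.finrank_eigen
  set W : Submodule k (Fin C.r → k) := redSpan (resLoc φ) (kerO A) with hW
  have hW2 : Module.finrank k W = 2 := by
    rw [hW, finrank_redSpan (resLoc φ) hSv, hcard]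
  have hWeig : ∀ ℓ : Nat.Primes, ∀ w ∈ W,
      (C.t ℓ).map (Int.cast : ℤ → k) *ᵥ w = φ (I.a ℓ) • w := by
    intro ℓ
    have hle : W ≤ LinearMap.ker ((A ℓ).map (resLoc φ)).mulVecLin := by
      rw [hW, redSpan, Submodule.span_le]
      rintro _ ⟨x, hx, rfl⟩
      rw [SetLike.mem_coe, LinearMap.mem_ker, Matrix.mulVecLin_apply]
      exact map_mem_ker A (resLoc φ) hx ℓ
    intro w hw
    have h1 := hle hw
    rw [LinearMap.mem_ker, Matrix.mulVecLin_apply, hA, heckeMat_map_res, Matrix.sub_mulVec,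
      Matrix.smul_mulVec, Matrix.one_mulVec, sub_eq_zero] at h1
    exact h1
  have : Nontrivial W := Module.nontrivial_of_finrank_pos (R := k) (by rw [hW2]; norm_num)
  obtain ⟨w, hw⟩ := exists_ne (0 : W)
  exact ⟨w, fun h => hw (Subtype.ext h), fun ℓ => hWeig ℓ w w.2⟩

/-! ### the eigenclass in `J₀(N)[p]` -/

/-- a vector of `(ℤ/p)^r` gives a class in `J₀(N)[p]`, eigen if the vector is. -/
theorem torsion_of_vector {N p : ℕ} [NeZero N] (C : ComparisonData N p)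
    (v : Fin C.r → ZMod (p ^ 1)) (hv0 : v ≠ 0) :
    ∃ x : JZero N, x ≠ 0 ∧ x ∈ tors N (p : ℤ) ∧ ∀ (ℓ : Nat.Primes) (a : ℤ),
      (C.t ℓ).map (Int.cast : ℤ → ZMod (p ^ 1)) *ᵥ v = ((a : ℤ) : ZMod (p ^ 1)) • v →
      C.TJ ℓ x = a • x := by
  set x : Tors N (p ^ 1) := (C.κ 1).symm v with hx
  have hκx : C.κ 1 x = v := (C.κ 1).apply_symm_apply v
  have hx0 : x ≠ 0 := by
    intro h
    apply hv0
    rw [← hκx, h, map_zero]
  have hxt : (x : JZero N) ∈ tors N (p : ℤ) := by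
    have h1 := x.2
    rw [Submodule.mem_torsionBy_iff] at h1
    show (x : JZero N) ∈ Submodule.torsionBy ℤ (JZero N) (p : ℤ)
    rw [Submodule.mem_torsionBy_iff]
    have e : ((p ^ 1 : ℕ) : ℤ) = (p : ℤ) := by rw [pow_one]
    calc (p : ℤ) • (x : JZero N) = ((p ^ 1 : ℕ) : ℤ) • (x : JZero N) :=
          congrArg (fun n : ℤ => n • (x : JZero N)) e.symm
      _ = 0 := h1
  refine ⟨(x : JZero N), fun h => hx0 (Subtype.ext h), hxt, fun ℓ a h2 => ?_⟩
  have h1 := C.κ_hecke 1 ℓ x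
  rw [hκx, h2] at h1
  have h3 : C.κ 1 (a • x) = ((a : ℤ) : ZMod (p ^ 1)) • v := by
    rw [map_zsmul, hκx]
    funext c
    rw [Pi.smul_apply, Pi.smul_apply, zsmul_eq_mul, smul_eq_mul]
  have h4 : (⟨C.TJ ℓ x, map_mem_Tors (C.TJ ℓ) x.2⟩ : Tors N (p ^ 1)) = a • x :=
    (C.κ 1).injective (h1.trans h3.symm)
  exact congrArg Subtype.val h4

theorem sub_smul_one_mulVec_eq_zero_iff {K : Type*} [CommRing K] {r : ℕ}
    (T : Matrix (Fin r) (Fin r) K) (c : K) (w : Fin r → K) :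
    (T - c • (1 : Matrix (Fin r) (Fin r) K)) *ᵥ w = 0 ↔ T *ᵥ w = c • w := by
  rw [Matrix.sub_mulVec, Matrix.smul_mulVec, Matrix.one_mulVec, sub_eq_zero]

/-- the matrix of the linear system over the residue field. -/
theorem map_sub_smul_one {R K : Type*} [CommRing R] [CommRing K] (φ : R →+* K) {r : ℕ}
    (T : Matrix (Fin r) (Fin r) ℤ) (a : ℤ) :
    (T.map (Int.cast : ℤ → R) - ((a : ℤ) : R) • (1 : Matrix (Fin r) (Fin r) R)).map φ =
      T.map (Int.cast : ℤ → K) - ((a : ℤ) : K) • (1 : Matrix (Fin r) (Fin r) K) := by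
  ext i j
  rw [Matrix.map_apply, Matrix.sub_apply, Matrix.sub_apply, Matrix.smul_apply, Matrix.smul_apply,
    Matrix.map_apply, Matrix.map_apply, map_sub, smul_eq_mul, smul_eq_mul, map_mul, map_intCast,
    map_intCast, Matrix.one_apply, Matrix.one_apply]
  split_ifs
  · rw [map_one]
  · rw [map_zero]

/-- **a non-zero Hecke eigenclass in `J₀(N)[p]`** for an `𝔽_p`-valued eigensystem congruent to the
eigensystem of a normalized eigenform. -/
theorem exists_eigen_torsion {N : ℕ} [NeZero N] {p : ℕ} (hp : p.Prime)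
    (f : CuspForm (CongruenceSubgroup.Gamma0 N) 2) (hf : f.IsNormalizedEigenform)
    (𝔪 : Ideal Zbar) (h𝔪 : 𝔪.IsMaximal) (hp𝔪 : (p : Zbar) ∈ 𝔪)
    (a : ℕ → ℤ) (S : ℕ → Prop) (hS : ∀ ℓ, S ℓ → ℓ.Prime ∧ ¬ ℓ ∣ N)
    (hcong : CongruentTo f 𝔪 a S) :
    ∃ x : JZero N, x ≠ 0 ∧ x ∈ tors N (p : ℤ) ∧
      ∀ (ℓ : ℕ) (hℓ : ℓ.Prime), S ℓ → heckeOperatorBar N ⟨ℓ, hℓ⟩ x = (a ℓ) • x := by
  classical
  obtain ⟨C, hC⟩ := Fermat.Agent.S29lib.Z.compStatement N p hp
  obtain ⟨I⟩ := hC f hf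
  have hchar : CharP (Zbar ⧸ 𝔪) p := charP_quot 𝔪 p hp hp𝔪
  obtain ⟨w, hw0, hw⟩ := exists_eigenvector_resField hp C I 𝔪 hp𝔪
  -- the field `ℤ/p^1`
  have hfield : IsField (ZMod (p ^ 1)) := by
    have : Fact (p ^ 1).Prime := ⟨by rwa [pow_one]⟩
    exact Field.toIsField (ZMod (p ^ 1))
  have hchar1 : CharP (Zbar ⧸ 𝔪) (p ^ 1) := by rw [pow_one]; exact hchar
  let _ : Algebra (ZMod (p ^ 1)) (Zbar ⧸ 𝔪) := ZMod.algebra _ (p ^ 1)
  -- the linear system over `ℤ/p^1`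
  let Idx : Type := {ℓ : Nat.Primes // S ℓ}
  let A : Idx → Matrix (Fin C.r) (Fin C.r) (ZMod (p ^ 1)) := fun i =>
    (C.t i.1).map (Int.cast : ℤ → ZMod (p ^ 1)) - ((a i.1 : ℤ) : ZMod (p ^ 1)) • 1
  have hA : ∀ i, (A i).map (algebraMap (ZMod (p ^ 1)) (Zbar ⧸ 𝔪)) *ᵥ w = 0 := by
    intro i
    obtain ⟨b, hb1, hb2⟩ := hcong i.1 i.2
    have hbI : b = I.a i.1 := by
      apply Subtype.ext
      rw [hb1, I.a_eq]
    have hmk : Ideal.Quotient.mk 𝔪 (I.a i.1) = ((a i.1 : ℤ) : Zbar ⧸ 𝔪) := by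
      rw [← hbI, ← sub_eq_zero, ← map_intCast (Ideal.Quotient.mk 𝔪), ← map_sub]
      exact Ideal.Quotient.eq_zero_iff_mem.mpr hb2
    have e := map_sub_smul_one (algebraMap (ZMod (p ^ 1)) (Zbar ⧸ 𝔪)) (C.t i.1) (a i.1)
    show ((C.t i.1).map (Int.cast : ℤ → ZMod (p ^ 1)) - ((a i.1 : ℤ) : ZMod (p ^ 1)) • 1).map
      (algebraMap (ZMod (p ^ 1)) (Zbar ⧸ 𝔪)) *ᵥ w = 0
    rw [e, sub_smul_one_mulVec_eq_zero_iff, hw i.1, hmk]
  obtain ⟨v, hv0, hv⟩ := exists_ne_zero_of_extension hfield A w hw0 hA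
  obtain ⟨x, hx0, hxt, hxe⟩ := torsion_of_vector C v hv0
  refine ⟨x, hx0, hxt, fun ℓ hℓ hSℓ => ?_⟩
  rw [← C.TJ_good ⟨ℓ, hℓ⟩ (hS ℓ hSℓ).2]
  apply hxe
  have h2 : ((C.t ⟨ℓ, hℓ⟩).map (Int.cast : ℤ → ZMod (p ^ 1)) -
      ((a ℓ : ℤ) : ZMod (p ^ 1)) • 1) *ᵥ v = 0 := hv ⟨⟨ℓ, hℓ⟩, hSℓ⟩
  exact (sub_smul_one_mulVec_eq_zero_iff _ _ _).mp h2

end Fermat.Agent.S44lib.Q1

end
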