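/-
S44lib / Q1 / Main  (helper5) — Project LSq.

**`q1Stmt : Q1Stmt`** (the block statement of `S44lib/Iface.lean`): the Frey module `E[p]` sits inside
`J₀(N)[p]`, `G_ℚ`-equivariantly, in the Hecke eigenspace with the eigenvalues `a_ℓ(W)`.

* `EigenTors`: the eigenspace `W₁ ≤ J₀(N)[p]` for the system `ℓ ↦ a_ℓ(W)` (test primes) is non-zero;
* Eichler–Shimura (`S29lib.LocalData.frob`) + `ESide.trace_det_rhoE_frob` + weak Chebotarev (`Cheb`):
  every `g ∈ G_ℚ` is killed on `W₁` by the characteristic polynomial of `g` on `E[p]`;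
* `ESide.span_range_rhoE` (absolute irreducibility + Burnside) and `BLR`: `E[p] ↪ W₁`.
-/
import Mathlib
import Fermat.Agent.S44lib.Iface
import Fermat.Agent.S44lib.Q1.BLR
import Fermat.Agent.S44lib.Q1.EigenTors
import Fermat.Agent.S44lib.Q1.ESide
import Fermat.Agent.S44lib.Q1.Cheb
import Fermat.Agent.S51lib.Transfer
import Fermat.Agent.S13lib.Node2.FreyDelta

set_option autoImplicit false
set_option linter.unusedSectionVars false

noncomputable section

namespace Fermat.Agent.S44lib.Q1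

open ModularCurve Matrix Fermat.Agent.S29lib Fermat.Agent.S44lib Fermat.Agent.S19lib
open WeierstrassCurve WeierstrassCurve.Affine WeierstrassCurve.Affine.Point
open Fermat.Agent.S58lib.Tate

local notation "Qb" => AlgebraicClosure ℚ
local notation "GQ" => (AlgebraicClosure ℚ ≃ₐ[ℚ] AlgebraicClosure ℚ)
local notation "Zbar" => integralClosure ℤ ℂ

/-! ### transport of torsion along an equivariant isomorphism of the groups of points -/

/-- an additive equivalence induces an equivalence of the `n`-torsion subgroups -/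
def torsEquivOfEquiv {A B : Type*} [AddCommGroup A] [AddCommGroup B] (ψ : A ≃+ B) (n : ℤ) :
    Submodule.torsionBy ℤ A n ≃+ Submodule.torsionBy ℤ B n where
  toFun x := ⟨ψ x, by
    rw [Submodule.mem_torsionBy_iff, ← map_zsmul, (Submodule.mem_torsionBy_iff _ _).1 x.2,
      _root_.map_zero]⟩
  invFun y := ⟨ψ.symm y, by
    rw [Submodule.mem_torsionBy_iff, ← map_zsmul, (Submodule.mem_torsionBy_iff _ _).1 y.2,
      _root_.map_zero]⟩
  left_inv x := Subtype.ext (ψ.symm_apply_apply _)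
  right_inv y := Subtype.ext (ψ.apply_symm_apply _)
  map_add' x y := Subtype.ext (map_add ψ _ _)

theorem torsEquivOfEquiv_coe {A B : Type*} [AddCommGroup A] [AddCommGroup B] (ψ : A ≃+ B) (n : ℤ)
    (x : Submodule.torsionBy ℤ A n) : ((torsEquivOfEquiv ψ n x : Submodule.torsionBy ℤ B n) : B) =
      ψ (x : A) := rfl

/-- an equivariant isomorphism of points from a change of variables -/
theorem exists_pointEquiv_of_variableChange (E E' : WeierstrassCurve ℚ) (C : VariableChange ℚ)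
    (h : C • E = E') :
    ∃ ψ : (E'⁄Qb).Point ≃+ (E⁄Qb).Point, ∀ (σ : GQ) (Q : (E'⁄Qb).Point), ψ (σ • Q) = σ • ψ Q := by
  subst h
  exact ⟨Fermat.Agent.S51lib.vcEquivBaseChange E C,
    Fermat.Agent.S51lib.vcEquivBaseChange_smul E C⟩

/-! ### the eigenspace in `J₀(N)[p]` -/

section eigen

variable (N : ℕ) [NeZero N] (p : ℕ) (a : ℕ → ℤ) (S : ℕ → Prop)

/-- the Hecke eigenspace of `J₀(N)[p]` for the system `a` on the primes in `S` -/
def eigenSub : AddSubgroup (JZero N) where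
  carrier := {x | x ∈ tors N (p : ℤ) ∧ ∀ (ℓ : ℕ) (hℓ : ℓ.Prime), S ℓ →
    heckeOperatorBar N ⟨ℓ, hℓ⟩ x = (a ℓ) • x}
  zero_mem' := ⟨zero_mem _, fun ℓ hℓ _ => by rw [_root_.map_zero]; exact (zsmul_zero _).symm⟩
  add_mem' := by
    rintro x y ⟨hx, hx'⟩ ⟨hy, hy'⟩
    exact ⟨add_mem hx hy, fun ℓ hℓ hS => by
      rw [map_add, hx' ℓ hℓ hS, hy' ℓ hℓ hS]; exact (zsmul_add _ _ _).symm⟩
  neg_mem' := by
    rintro x ⟨hx, hx'⟩
    exact ⟨neg_mem hx, fun ℓ hℓ hS => by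
      rw [map_neg, hx' ℓ hℓ hS]; exact (zsmul_neg _ _).symm⟩

variable {N p a S}

theorem mem_eigenSub {x : JZero N} : x ∈ eigenSub N p a S ↔ x ∈ tors N (p : ℤ) ∧
    ∀ (ℓ : ℕ) (hℓ : ℓ.Prime), S ℓ → heckeOperatorBar N ⟨ℓ, hℓ⟩ x = (a ℓ) • x := Iff.rfl

theorem mem_tors_iff {x : JZero N} {m : ℤ} : x ∈ tors N m ↔ m • x = 0 :=
  Submodule.mem_torsionBy_iff _ _

theorem smul_mem_eigenSub (σ : GQ) {x : JZero N} (hx : x ∈ eigenSub N p a S) :
    σ • x ∈ eigenSub N p a S := by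
  obtain ⟨h1, h2⟩ := hx
  refine ⟨?_, fun ℓ hℓ hS => ?_⟩
  · exact smul_mem_Tors (n := p) σ h1
  · rw [Fermat.Agent.S29lib.GH.heckeOperatorBar_galois N ⟨ℓ, hℓ⟩ σ x, h2 ℓ hℓ hS,
      galois_smul_zsmul]

theorem nsmul_eigenSub_eq_zero (x : eigenSub N p a S) : p • x = 0 := by
  apply Subtype.ext
  have h := x.2.1
  rw [mem_tors_iff, natCast_zsmul] at h
  exact h

variable (N p a S)

instance instModuleEigenSub : Module (ZMod p) (eigenSub N p a S) :=
  AddCommGroup.zmodModule nsmul_eigenSub_eq_zero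

/-- the Galois action on the eigenspace, additively -/
def galEigenAdd (σ : GQ) : eigenSub N p a S →+ eigenSub N p a S where
  toFun x := ⟨σ • (x : JZero N), smul_mem_eigenSub σ x.2⟩
  map_zero' := Subtype.ext (smul_zero σ)
  map_add' x y := Subtype.ext (smul_add σ (x : JZero N) (y : JZero N))

/-- the Galois action on the eigenspace -/
def galEigen : GQ →* Module.End (ZMod p) (eigenSub N p a S) where
  toFun σ := (galEigenAdd N p a S σ).toZModLinearMap p
  map_one' := by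
    apply LinearMap.ext
    intro x
    exact Subtype.ext (one_smul _ _)
  map_mul' σ τ := by
    apply LinearMap.ext
    intro x
    exact Subtype.ext (mul_smul σ τ (x : JZero N))

variable {N p a S}

theorem galEigen_coe (σ : GQ) (x : eigenSub N p a S) :
    ((galEigen N p a S σ x : eigenSub N p a S) : JZero N) = σ • (x : JZero N) := rfl

end eigen


/-! ### the main statement -/

/-- `(a : ℤ) • y = (a : ZMod p) • y` in the eigenspace -/
theorem intCast_smul_eigenSub {N : ℕ} [NeZero N] {p : ℕ} {a : ℕ → ℤ} {S : ℕ → Prop} (c : ℤ)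
    (y : eigenSub N p a S) : ((c : ZMod p) • y : eigenSub N p a S) = c • y :=
  Int.cast_smul_eq_zsmul (ZMod p) c y

theorem mem_Tors_one_of_mem_tors {N : ℕ} [NeZero N] {p : ℕ} {x : JZero N}
    (hx : x ∈ tors N (p : ℤ)) : x ∈ Tors N (p ^ 1) := by
  rw [mem_tors_iff] at hx
  rw [Submodule.mem_torsionBy_iff]
  have e : ((p ^ 1 : ℕ) : ℤ) = (p : ℤ) := by rw [pow_one]
  rw [e]
  exact hx

theorem end_quad_eq_zero_iff {k M : Type*} [CommRing k] [AddCommGroup M] [Module k M]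
    (f : Module.End k M) (c d : k) :
    f * f - c • f + d • (1 : Module.End k M) = 0 ↔ ∀ x, f (f x) - c • f x + d • x = 0 := by
  constructor
  · intro h x
    have := LinearMap.congr_fun h x
    simpa using this
  · intro h
    ext x
    simpa using h x

/-- **Eichler–Shimura on the eigenspace**: a Frobenius element at `ℓ ∤ Np`, `ℓ ∈ S`, satisfies
`φ² - a_ℓ φ + ℓ = 0`. -/
theorem galEigen_frob {N : ℕ} [NeZero N] {p : ℕ} (hloc : LocalData N p) (a : ℕ → ℤ)
    (S : ℕ → Prop) {ℓ : ℕ} (hℓ : ℓ.Prime) (hℓNp : ¬ ℓ ∣ N * p) (hSℓ : S ℓ)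
    {A : ValuationSubring Qb} (hA : A.LiesOverPrime ℓ) {φ : GQ} (hφ : A.IsFrobeniusAt φ ℓ)
    (t d : ZMod p) (ht : t = ((a ℓ : ℤ) : ZMod p)) (hd : d = ((ℓ : ℕ) : ZMod p)) :
    galEigen N p a S φ * galEigen N p a S φ - t • galEigen N p a S φ +
      d • (1 : Module.End (ZMod p) (eigenSub N p a S)) = 0 := by
  subst ht hd
  rw [end_quad_eq_zero_iff]
  intro x
  have h1 := hloc.frob ℓ hℓ hℓNp A hA φ hφ 1 (x : JZero N) (mem_Tors_one_of_mem_tors x.2.1)
  have h2 : heckeOperatorBar N ⟨ℓ, hℓ⟩ (φ • (x : JZero N)) = (a ℓ) • (φ • (x : JZero N)) :=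
    (smul_mem_eigenSub φ x.2).2 ℓ hℓ hSℓ
  rw [h2, natCast_zsmul] at h1
  rw [intCast_smul_eigenSub, Nat.cast_smul_eq_nsmul]
  have key : ∀ (u v w : eigenSub N p a S) (c : ℤ) (n : ℕ),
      ((u : JZero N) - c • (v : JZero N) + n • (w : JZero N) = 0) → u - c • v + n • w = 0 := by
    intro u v w c n h
    apply Subtype.ext
    rw [AddSubgroup.coe_add, AddSubgroup.coe_sub, AddSubgroup.coe_zsmul, AddSubgroup.coe_nsmul,
      AddSubgroup.coe_zero]
    exact h
  refine key _ _ _ _ _ ?_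
  exact h1


/-- the relation for all of `G_ℚ` on the eigenspace of the system `a_ℓ(W)`. -/
theorem galEigen_rel (W : WeierstrassCurve ℤ) (hΔ : W.Δ ≠ 0) (N : ℕ) [NeZero N] (p : ℕ)
    [hp : Fact p.Prime] (g : GQ) :
    galEigen N p W.apOfModel (IsTestPrime W N p) g * galEigen N p W.apOfModel (IsTestPrime W N p) g -
      (rhoE W hΔ p g).trace • galEigen N p W.apOfModel (IsTestPrime W N p) g +
      (rhoE W hΔ p g).det •
        (1 : Module.End (ZMod p) (eigenSub N p W.apOfModel (IsTestPrime W N p))) = 0 := by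
  classical
  obtain ⟨Cd, -⟩ := Fermat.Agent.S29lib.Z.compStatement N p hp.out
  have hloc : LocalData N p :=
    Fermat.Agent.S29lib.GH.localData_of_comparisonData Cd hp.out.ne_zero
  -- finite level
  have hπL : ∃ L : IntermediateField ℚ Qb, FiniteDimensional ℚ L ∧
      ∀ σ : GQ, (∀ x ∈ L, σ x = x) →
        galEigen N p W.apOfModel (IsTestPrime W N p) σ = 1 := by
    obtain ⟨L, hL, hfix⟩ := hloc.finiteLevel 1
    refine ⟨L, hL, fun σ hσ => ?_⟩
    apply LinearMap.ext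
    intro x
    apply Subtype.ext
    rw [galEigen_coe]
    exact hfix σ hσ _ (mem_Tors_one_of_mem_tors x.2.1)
  refine quad_of_frobenius_all (rhoE W hΔ p) (galEigen N p W.apOfModel (IsTestPrime W N p))
    (rhoE_finiteLevel W hΔ p) hπL
    ({p} ∪ N.primeFactors ∪ W.Δ.natAbs.primeFactors : Finset ℕ) ?_ g
  intro ℓ hℓ hℓS A hA φ hφ
  simp only [Finset.mem_union, Finset.mem_singleton, not_or] at hℓS
  obtain ⟨⟨hℓp, hℓN⟩, hℓΔ⟩ := hℓS
  have hℓN' : ¬ ℓ ∣ N := fun hd => hℓN (Nat.mem_primeFactors.mpr ⟨hℓ, hd, NeZero.ne N⟩)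
  have hgood : ¬ (ℓ : ℤ) ∣ W.Δ := by
    intro hd
    apply hℓΔ
    rw [Nat.mem_primeFactors]
    exact ⟨hℓ, Int.natCast_dvd.mp hd, Int.natAbs_ne_zero.mpr hΔ⟩
  have htest : IsTestPrime W N p ℓ := ⟨hℓ, hgood, hℓN', hℓp⟩
  have hℓNp : ¬ ℓ ∣ N * p := by
    intro hd
    rcases (Nat.Prime.dvd_mul hℓ).1 hd with h | h
    · exact hℓN' h
    · exact hℓp ((Nat.prime_dvd_prime_iff_eq hℓ hp.out).1 h)
  have h3 := trace_det_rhoE_frob W hΔ p hℓ hℓp hgood hA hφ
  exact galEigen_frob hloc W.apOfModel (IsTestPrime W N p) hℓ hℓNp htest hA hφ _ _ h3.1 h3.2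

/-- the Frey module in the coordinates of an integral model. -/
theorem exists_freyCoord (P : FreyPackage) [hpf : Fact P.p.Prime] (W : WeierstrassCurve ℤ)
    (hW : W.IsIntegralModelOf P.freyCurve)
    (hirr : GaloisRepIsIrreducible (K := Qb) ℚ P.freyCurve P.p) :
    ∃ (hΔ : W.Δ ≠ 0) (d : FreyTors P ≃+ (Fin 2 → ZMod P.p)),
      (∀ (σ : GQ) (x : FreyTors P), d (σ • x) = rhoE W hΔ P.p σ *ᵥ d x) ∧
      GaloisRepIsIrreducible (K := Qb) ℚ (WQ' W : WeierstrassCurve ℚ) P.p := by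
  obtain ⟨C, hC⟩ := hW
  have hΔq : (W.map (Int.castRingHom ℚ) : WeierstrassCurve ℚ).Δ ≠ 0 := by
    rw [← hC, WeierstrassCurve.variableChange_Δ]
    exact mul_ne_zero (pow_ne_zero _ (Units.ne_zero _)) (P.freyCurve.isUnit_Δ.ne_zero)
  have hΔ : W.Δ ≠ 0 := by
    intro h0
    apply hΔq
    rw [WeierstrassCurve.map_Δ, h0, _root_.map_zero]
  have hirr' : GaloisRepIsIrreducible (K := Qb) ℚ
      (WQ' W : WeierstrassCurve ℚ) P.p := by
    show GaloisRepIsIrreducible (K := Qb) ℚ (W.map (Int.castRingHom ℚ) : WeierstrassCurve ℚ) P.p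
    rw [← hC]
    exact (Fermat.Agent.S51lib.galoisRepIsIrreducible_variableChange_iff P.freyCurve C P.p).mpr hirr
  obtain ⟨ψ, hψ⟩ := exists_pointEquiv_of_variableChange P.freyCurve (WQ' W) C hC
  refine ⟨hΔ, (torsEquivOfEquiv ψ (P.p : ℤ)).symm.trans (coordE W hΔ P.p), ?_, hirr'⟩
  intro σ x
  rw [AddEquiv.trans_apply, AddEquiv.trans_apply, ← coordE_smul]
  congr 1
  apply (torsEquivOfEquiv ψ (P.p : ℤ)).injective
  rw [AddEquiv.apply_symm_apply]
  apply Subtype.ext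
  rw [torsEquivOfEquiv_coe]
  show σ • (x : ((P.freyCurve : Affine ℚ)⁄Qb).Point) = ψ (σ • _)
  rw [hψ, ← torsEquivOfEquiv_coe ψ (P.p : ℤ), AddEquiv.apply_symm_apply]

/-- **Q1.** -/
theorem q1Stmt : Q1Stmt := by
  intro P N _ hcond hpN hirr f W 𝔪 hf hW h𝔪 hp𝔪 hcong
  classical
  have hpf : Fact P.p.Prime := ⟨P.pp⟩
  have hp2 : P.p ≠ 2 := by
    have := P.hp5
    omega
  obtain ⟨hΔ, d, hdσ, hirr'⟩ := exists_freyCoord P W hW hirr
  -- the eigenspace
  have hSN : ∀ ℓ, IsTestPrime W N P.p ℓ → ℓ.Prime ∧ ¬ ℓ ∣ N := fun ℓ h => ⟨h.1, h.2.2.1⟩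
  obtain ⟨x₀, hx₀, hx₀t, hx₀e⟩ :=
    exists_eigen_torsion P.pp f hf 𝔪 h𝔪 hp𝔪 W.apOfModel (IsTestPrime W N P.p) hSN hcong
  have hx₀W : x₀ ∈ eigenSub N P.p W.apOfModel (IsTestPrime W N P.p) := ⟨hx₀t, hx₀e⟩
  -- Boston–Lenstra–Ribet
  have h2 : (2 : ZMod P.p) ≠ 0 := by
    intro h20
    have h3 : ((2 : ℕ) : ZMod P.p) = 0 := by exact_mod_cast h20
    rw [ZMod.natCast_eq_zero_iff] at h3
    exact hp2 ((Nat.prime_dvd_prime_iff_eq P.pp Nat.prime_two).mp h3)
  obtain ⟨g, hginj, hgeq⟩ := exists_equivariant_embedding h2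
    (span_range_rhoE W hΔ P.p hp2 hirr') (galEigen_rel W hΔ N P.p)
    ⟨⟨x₀, hx₀W⟩, fun h => hx₀ (congrArg Subtype.val h)⟩
  -- the embedding `E[p] → J₀(N)`
  set ι : FreyTors P →+ JZero N :=
    ((eigenSub N P.p W.apOfModel (IsTestPrime W N P.p)).subtype.comp
      (g : (Fin 2 → ZMod P.p) →+ eigenSub N P.p W.apOfModel (IsTestPrime W N P.p))).comp
      (d : FreyTors P →+ (Fin 2 → ZMod P.p)) with hι
  have hιx : ∀ x, ι x =
      ((g (d x) : eigenSub N P.p W.apOfModel (IsTestPrime W N P.p)) : JZero N) := fun _ => rfl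
  have hιinj : Function.Injective ι := by
    intro x y hxy
    rw [hιx, hιx] at hxy
    exact d.injective (hginj (Subtype.ext hxy))
  refine ⟨ι.range, AddMonoidHom.ofInjective hιinj, ?_, ?_, ?_⟩
  · rintro _ ⟨x, rfl⟩
    rw [hιx]
    exact (g (d x)).2.1
  · intro σ x
    show ι (σ • x) = σ • ι x
    rw [hιx, hιx, hdσ, hgeq, galEigen_coe]
  · rintro ℓ hℓ htest _ ⟨x, rfl⟩
    rw [hιx]
    exact (g (d x)).2.2 ℓ hℓ htest

end Fermat.Agent.S44lib.Q1

end
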