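/-
S44lib / Q1 / NonEis  (helper5) — Project LSq.

`nonEisStmt : NonEisStmt` (the block statement of `S44lib/Iface.lean`): irreducibility of `E[p]` gives
a test prime `ℓ` (good for `W`, `ℓ ∤ N`, `ℓ ≠ p`) with `a_ℓ(W) ≢ ℓ + 1 (mod p)`.

It is `S41lib.NE.exists_good_prime_not_eisenstein` (weak Chebotarev + the stable-line lemma) with the
finite exceptional set `S₀ = N.primeFactors`.
-/
import Mathlib
import Fermat.Agent.S44lib.Iface
import Fermat.Agent.S41lib.NE.Main
import Fermat.Agent.S13lib.Node2.FreyDelta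

set_option autoImplicit false

noncomputable section

namespace Fermat.Agent.S44lib.Q1

open Fermat.Agent.S44lib

/-- **the non-Eisenstein block** of `S44lib/Iface`. -/
theorem nonEisStmt : NonEisStmt := by
  intro P N W hN hW hirr
  have hp2 : P.p ≠ 2 := by
    have := P.hp5
    omega
  obtain ⟨ℓ, hℓ, hℓS, hℓp, hgood, hne⟩ :=
    Fermat.Agent.S41lib.NE.exists_good_prime_not_eisenstein P.freyCurve hW P.pp hp2 hirr
      N.primeFactors
  refine ⟨ℓ, ⟨hℓ, hgood, fun hd => hℓS (Nat.mem_primeFactors.mpr ⟨hℓ, hd, hN.ne'⟩), hℓp⟩, ?_⟩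
  intro hdvd
  apply hne
  have e : W.apOfModel ℓ - (1 + (ℓ : ℤ)) = W.apOfModel ℓ - ((ℓ : ℤ) + 1) := by ring
  rw [e]
  exact hdvd

end Fermat.Agent.S44lib.Q1

end
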